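import Mathlib
import Fermat.Agent.S05.H31.E0
import Fermat.Agent.S05.H63.Reduction

/-!
# S13, package L3: the branch lemma (any residue characteristic)

Multiplicative normal form `y² + a₁xy = x³ + a₂x² + a₄x` (`a₃ = a₆ = 0`), `a₁, a₂ ∈ A`,
`a₄ ∈ 𝔪_A`, `b₂` a unit of the valuation subring `A`.

* `branch_coord` : two points `P = (x, y)`, `P' = (x', y')` with `x ∈ 𝔪`, `a₄ / x ∈ 𝔪`,
  `x' / x` a unit and `y' / x' ≡ y / x` modulo `𝔪` (same branch at the node) satisfy
  `P' - P ∈ E₀`.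
* `a₄_div_xOf_mem_nonunits` : an odd-order torsion point outside `E₀` has `x ≠ 0` and
  `a₄ / x ∈ 𝔪`.
* `apply_div_self_unit` : elements of the decomposition group of `A` (algebraic extension)
  preserve the valuation: `σ x / x` is a unit of `A`.
* `inE0_smul_sub` : **branch lemma, Galois form**: for `σ` in the inertia group of `A` and `P` a
  point of odd prime order `p`, `σ • P - P ∈ E₀`.
-/

set_option autoImplicit false
set_option linter.unusedVariables false

namespace Fermat.Agent.S13.H27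

open WeierstrassCurve WeierstrassCurve.Affine Fermat.Agent.S05 Fermat.Agent.S05.H31

section Coord

variable {L : Type*} [Field L]

/-- In the normal form, for a point with `x ≠ 0`: `t = y / x` satisfies
`t² + a₁ t = x + a₂ + a₄ / x`. -/
lemma slope_equation {W : Affine L} (h₃ : W.a₃ = 0) (h₆ : W.a₆ = 0) {x y : L}
    (h : W.Equation x y) (hx0 : x ≠ 0) :
    (y / x) ^ 2 + W.a₁ * (y / x) = x + W.a₂ + W.a₄ / x := by
  rw [Affine.equation_iff, h₃, h₆] at h
  field_simp
  linear_combination h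

/-- In the normal form, for a point with `x ∈ A`, `x ≠ 0` and `a₄ / x ∈ A`, the ratio `y / x`
is integral. -/
lemma div_mem_of_equation {W : Affine L} (A : ValuationSubring L) (h₃ : W.a₃ = 0)
    (h₆ : W.a₆ = 0) (ha₁ : W.a₁ ∈ A) (ha₂ : W.a₂ ∈ A) {x y : L} (h : W.Equation x y)
    (hx0 : x ≠ 0) (hx : x ∈ A) (h4 : W.a₄ / x ∈ A) : y / x ∈ A := by
  by_contra ht
  have hE := slope_equation h₃ h₆ h hx0
  have hc : -(x + W.a₂ + W.a₄ / x) ∈ A := neg_mem (add_mem (add_mem hx ha₂) h4)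
  have := H63.sq_add_not_mem A ht ha₁ hc
  apply this
  have e : (y / x) ^ 2 + W.a₁ * (y / x) + -(x + W.a₂ + W.a₄ / x) = 0 := by
    rw [hE]; ring
  rw [e]
  exact A.zero_mem

variable [DecidableEq L]

/-- **Branch lemma, coordinate form.** -/
theorem branch_coord {W : Affine L} (A : ValuationSubring L) (h₃ : W.a₃ = 0) (h₆ : W.a₆ = 0)
    (ha₁ : W.a₁ ∈ A) (ha₂ : W.a₂ ∈ A) (hb₂ : W.b₂ ∉ A.nonunits)
    {x y x' y' : L} (h : W.Nonsingular x y) (h' : W.Nonsingular x' y')
    (hx0 : x ≠ 0) (hx : x ∈ A.nonunits) (h4 : W.a₄ / x ∈ A.nonunits)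
    (he : x' / x ∈ A) (he' : x' / x ∉ A.nonunits)
    (ht : y' / x' - y / x ∈ A.nonunits) :
    InE0 A (Point.some x' y' h' - Point.some x y h) := by
  have he0 : x' / x ≠ 0 := ne_zero_of_not_nu A he'
  have hx'0 : x' ≠ 0 := fun h0 => he0 (by rw [h0, zero_div])
  have hxA : x ∈ A := mem_of_nu A hx
  have hx' : x' ∈ A.nonunits := by
    have : x' = x' / x * x := by field_simp
    rw [this]; exact nu_mul_left A he hx
  have hx'A : x' ∈ A := mem_of_nu A hx'
  have h4' : W.a₄ / x' ∈ A.nonunits := by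
    have : W.a₄ / x' = (x' / x)⁻¹ * (W.a₄ / x) := by field_simp
    rw [this]; exact nu_mul_left A (inv_mem_of_not_nu A he') h4
  have hE := slope_equation h₃ h₆ h.1 hx0
  have hE' := slope_equation h₃ h₆ h'.1 hx'0
  have htA : y / x ∈ A := div_mem_of_equation A h₃ h₆ ha₁ ha₂ h.1 hx0 hxA (mem_of_nu A h4)
  have ht'A : y' / x' ∈ A :=
    div_mem_of_equation A h₃ h₆ ha₁ ha₂ h'.1 hx'0 hx'A (mem_of_nu A h4')
  have hb2 : W.b₂ = W.a₁ ^ 2 + 4 * W.a₂ := by simp [b₂]
  have h4A : (4 : L) ∈ A := by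
    have : (4 : L) = 2 * 2 := by norm_num
    rw [this]; exact A.mul_mem _ _ (two_mem A) (two_mem A)
  have h3A : (3 : L) ∈ A := by
    have : (3 : L) = 2 + 1 := by norm_num
    rw [this]; exact A.add_mem _ _ (two_mem A) A.one_mem
  have hb₂A : W.b₂ ∈ A := by
    rw [hb2]; exact add_mem (pow_mem ha₁ 2) (mul_mem h4A ha₂)
  -- name the normalised quantities
  obtain ⟨e, hedef⟩ : ∃ e : L, e = x' / x := ⟨_, rfl⟩
  obtain ⟨t, htdef⟩ : ∃ t : L, t = y / x := ⟨_, rfl⟩
  obtain ⟨t', ht'def⟩ : ∃ t' : L, t' = y' / x' := ⟨_, rfl⟩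
  obtain ⟨c, hcdef⟩ : ∃ c : L, c = W.a₄ / x := ⟨_, rfl⟩
  obtain ⟨c', hc'def⟩ : ∃ c' : L, c' = W.a₄ / x' := ⟨_, rfl⟩
  rw [← hedef] at he he' he0
  rw [← htdef, ← ht'def] at ht
  rw [← hcdef] at h4 hE
  rw [← hc'def] at h4' hE'
  rw [← htdef] at hE htA
  rw [← ht'def] at hE' ht'A
  have hxe : x' = e * x := by rw [hedef]; field_simp
  have hy : y = t * x := by rw [htdef]; field_simp
  have hy' : y' = t' * x' := by rw [ht'def]; field_simp
  have hcc : c = e * c' := by rw [hcdef, hc'def, hedef]; field_simp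
  by_cases hxx : x' = x
  · -- same `x`-coordinate
    subst hxx
    rcases Y_eq_of_X_eq h'.1 h.1 rfl with hyy | hyy
    · subst hyy
      left
      exact sub_self _
    · exfalso
      -- then `t' - t = -(2t + a₁)`, whose square is `≡ b₂`
      have e1 : t' = -t - W.a₁ := by
        rw [ht'def, hyy, htdef]
        simp only [negY, h₃]
        field_simp
        ring
      have e2 : W.b₂ = (t' - t) ^ 2 - 4 * x' - 4 * c := by
        rw [e1, hb2]
        linear_combination (-4 : L) * hE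
      apply hb₂
      rw [e2]
      refine nu_sub A (nu_sub A ?_ (nu_mul_left A h4A hx)) (nu_mul_left A h4A h4)
      rw [pow_two]
      exact nu_mul_left A (mem_of_nu A ht) ht
  · -- different `x`-coordinates: compute with the chord
    rw [sub_eq_add_neg, Point.neg_some, Point.add_of_X_ne hxx]
    right
    rw [xOf_some]
    intro hX
    have he1 : e - 1 ≠ 0 := by
      intro h0
      apply hxx
      rw [hxe, sub_eq_zero.mp h0, one_mul]
    have hxx0 : x' - x ≠ 0 := sub_ne_zero.mpr hxx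
    have key : W.addX x' x (W.slope x' x y' (W.negY x y)) * (e - 1) ^ 2 =
        (t' * e + t + W.a₁) ^ 2 + W.a₁ * (t' * e + t + W.a₁) * (e - 1)
          - (W.a₂ + e * x + x) * (e - 1) ^ 2 := by
      rw [slope_of_X_ne hxx]
      simp only [addX, negY, h₃]
      rw [hy', hy, hxe]
      have : e * x - x ≠ 0 := by rw [← hxe]; exact hxx0
      field_simp
      ring
    have key2 : e * W.b₂ = W.addX x' x (W.slope x' x y' (W.negY x y)) * (e - 1) ^ 2
        - (c * (1 + 3 * e) + 3 * e * x + e ^ 2 * x + e * ((t' - t) * (2 * t + W.a₁))) := by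
      rw [key, hb2, hcc]
      rw [hxe] at hE'
      rw [hcc] at hE
      linear_combination (-(e ^ 2)) * hE' - (1 + 2 * e) * hE
    have hmem : e * W.b₂ ∈ A.nonunits := by
      rw [key2]
      have heA1 : e - 1 ∈ A := sub_mem he A.one_mem
      refine nu_sub A (nu_mul_right A hX (pow_mem heA1 2)) ?_
      refine nu_add A (nu_add A (nu_add A ?_ ?_) ?_) ?_
      · exact nu_mul_right A h4 (add_mem A.one_mem (mul_mem h3A he))
      · exact nu_mul_left A (mul_mem h3A he) hx
      · exact nu_mul_left A (pow_mem he 2) hx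
      · exact nu_mul_left A he
          (nu_mul_right A ht (add_mem (mul_mem (two_mem A) htA) ha₁))
    have h1 : A.valuation e = 1 := (val_one_iff A).mpr ⟨he, he'⟩
    have h2 : A.valuation W.b₂ = 1 := (val_one_iff A).mpr ⟨hb₂A, hb₂⟩
    rw [nu_iff, map_mul, h1, h2, one_mul] at hmem
    exact lt_irrefl _ hmem

/-- An odd-order torsion point outside `E₀` has `x ≠ 0` and `|a₄| < |x|`. -/
theorem a₄_div_xOf_mem_nonunits {W : Affine L} (A : ValuationSubring L) (h₃ : W.a₃ = 0)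
    (h₆ : W.a₆ = 0) (h₄ : W.a₄ ∈ A.nonunits) (hb₂ : W.b₂ ∈ A) {p : ℕ} (hp : p.Prime)
    (hp2 : p ≠ 2) {P : W.Point} (hpP : p • P = 0) (hP : ¬ InE0 A P) :
    xOf P ≠ 0 ∧ W.a₄ / xOf P ∈ A.nonunits := by
  have hP0 : P ≠ 0 := fun h0 => hP (Or.inl h0)
  have h2p : ¬ p ∣ 2 := by
    intro hd
    exact hp2 ((Nat.prime_dvd_prime_iff_eq hp Nat.prime_two).mp hd)
  have h2P : ¬ InE0 A (2 • P) := not_inE0_nsmul h₃ h₆ h₄ hb₂ hp hpP hP h2p
  have hPP : P + P ≠ 0 := by
    intro h0
    apply h2P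
    left
    rw [two_smul]; exact h0
  have hx0 : xOf P ≠ 0 := by
    intro hx
    apply hPP
    obtain ⟨x, y, h, rfl⟩ := exists_some_of_ne_zero hP0
    rw [xOf_some] at hx
    subst hx
    have hy : y = 0 := by
      have := h.1
      rw [Affine.equation_iff, h₃, h₆] at this
      have : y ^ 2 = 0 := by linear_combination this
      exact pow_eq_zero_iff (two_ne_zero) |>.mp this
    subst hy
    exact Point.add_self_of_Y_eq (by simp [negY, h₃])
  refine ⟨hx0, ?_⟩
  by_cases ha : W.a₄ = 0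
  · rw [ha, zero_div]; exact A.nonunits.zero_mem
  -- the 2-torsion point `T = (0, 0)`
  have hT : W.Nonsingular 0 0 := by
    rw [Affine.nonsingular_zero]
    exact ⟨h₆, Or.inr ha⟩
  set T : W.Point := Point.some 0 0 hT with hTdef
  have hT0 : T ≠ 0 := Point.some_ne_zero _
  have hTT : T + T = 0 := Point.add_self_of_Y_eq (by simp [negY, h₃])
  have hnegT : -T = T := by
    rw [neg_eq_iff_add_eq_zero]; exact hTT
  have hxT : xOf T = 0 := rfl
  have hne : xOf P ≠ xOf T := by rw [hxT]; exact hx0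
  obtain ⟨-, -, hprod, -⟩ := xOf_addsub hP0 hT0 hne
  have hsub : P - T = P + T := by rw [sub_eq_add_neg, hnegT]
  have hb6 : W.b₆ = 0 := by simp [b₆, h₃, h₆]
  have hb8 : W.b₈ = -W.a₄ ^ 2 := by simp [b₈, h₃, h₆]
  rw [hsub, hxT, hb6, hb8] at hprod
  have hsq : xOf (P + T) ^ 2 = (W.a₄ / xOf P) ^ 2 := by
    field_simp
    linear_combination hprod
  by_contra hcon
  -- then `P + T ∈ E₀`
  have hPT : InE0 A (P + T) := by
    right
    intro hX
    apply hcon
    have h1 : A.valuation (xOf (P + T) ^ 2) < 1 := by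
      rw [← nu_iff, pow_two]
      exact nu_mul_left A (mem_of_nu A hX) hX
    rw [hsq, map_pow] at h1
    rw [nu_iff]
    by_contra h2
    rw [not_lt] at h2
    exact absurd h1 (not_lt.mpr (one_le_pow₀ h2))
  apply h2P
  have := InE0.dbl h₃ h₆ h₄ hb₂ hPT
  have e : P + T + (P + T) = 2 • P := by
    rw [two_smul]
    calc P + T + (P + T) = (P + P) + (T + T) := by abel
      _ = P + P := by rw [hTT, add_zero]
  rwa [e] at this

/-- **L3, skeleton form** (exact statement of `Fermat/Agent/S13/Skeleton.lean`).  The hypotheses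
`IsAlgClosed L`, `hσ₁`, `hσa₁`, `hσa₂`, `hσa₄`, `ha₄` are not needed. -/
theorem branch_sub_inE0 {L : Type*} [Field L] [DecidableEq L] [IsAlgClosed L] {W : Affine L}
    (A : ValuationSubring L) (h₃ : W.a₃ = 0) (h₆ : W.a₆ = 0) (ha₁ : W.a₁ ∈ A) (ha₂ : W.a₂ ∈ A)
    (ha₄ : W.a₄ ∈ A.nonunits) (hb₂ : W.b₂ ∉ A.nonunits)
    (σ : L →+* L) (hσ₁ : ∀ a ∈ A, σ a ∈ A) (hσ₂ : ∀ a ∈ A, σ a - a ∈ A.nonunits)
    (hσa₁ : σ W.a₁ = W.a₁) (hσa₂ : σ W.a₂ = W.a₂) (hσa₄ : σ W.a₄ = W.a₄)
    {x y : L} (h : W.Nonsingular x y) (h' : W.Nonsingular (σ x) (σ y))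
    (hx : x ∈ A.nonunits) (hx₄ : W.a₄ / x ∈ A.nonunits)
    (hv : A.valuation (σ x) = A.valuation x) :
    S05.H31.InE0 A (Point.some (σ x) (σ y) h' - Point.some x y h) := by
  by_cases hx0 : x = 0
  · -- then `P = (0, 0) = σ P`
    left
    have hy0 : y = 0 := by
      have := h.1
      rw [Affine.equation_iff, h₃, h₆, hx0] at this
      have : y ^ 2 = 0 := by linear_combination this
      exact pow_eq_zero_iff (two_ne_zero) |>.mp this
    have key : ∀ (x₁ y₁ : L) (h₁ : W.Nonsingular x₁ y₁), x₁ = x → y₁ = y →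
        Point.some x₁ y₁ h₁ - Point.some x y h = 0 := by
      intro x₁ y₁ h₁ e₁ e₂
      subst e₁ e₂
      exact sub_self _
    exact key _ _ h' (by rw [hx0, map_zero]) (by rw [hy0, map_zero])
  have hvx : A.valuation x ≠ 0 := (Valuation.ne_zero_iff _).mpr hx0
  have hunit : A.valuation (σ x / x) = 1 := by
    rw [map_div₀, hv]; exact div_self hvx
  obtain ⟨he, he'⟩ := (val_one_iff A).mp hunit
  have htA : y / x ∈ A :=
    div_mem_of_equation A h₃ h₆ ha₁ ha₂ h.1 hx0 (mem_of_nu A hx) (mem_of_nu A hx₄)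
  have ht : σ y / σ x - y / x ∈ A.nonunits := by
    rw [← map_div₀]
    exact hσ₂ _ htA
  exact branch_coord A h₃ h₆ ha₁ ha₂ hb₂ h h' hx0 hx hx₄ he he' ht

end Coord

section Galois

open scoped WeierstrassCurve.Affine

/-- For `x` algebraic over `S`, some positive power of an `S`-automorphism fixes `x`. -/
lemma exists_pow_apply_eq {S K : Type*} [Field S] [Field K] [Algebra S K]
    [Algebra.IsAlgebraic S K] (σ : K ≃ₐ[S] K) (x : K) : ∃ n : ℕ, 0 < n ∧ (σ ^ n) x = x := by
  have hint : IsIntegral S x := (Algebra.IsAlgebraic.isAlgebraic x).isIntegral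
  have hfin : ((minpoly S x).rootSet K).Finite := Polynomial.rootSet_finite _ _
  have hmem : ∀ k : ℕ, (σ ^ k) x ∈ (minpoly S x).rootSet K := by
    intro k
    rw [Polynomial.mem_rootSet]
    refine ⟨minpoly.ne_zero hint, ?_⟩
    have := Polynomial.aeval_algHom_apply ((σ ^ k : K ≃ₐ[S] K) : K →ₐ[S] K) x (minpoly S x)
    rw [minpoly.aeval, map_zero] at this
    exact this
  obtain ⟨a, b, hab, heq⟩ := hfin.exists_lt_map_eq_of_forall_mem hmem
  refine ⟨b - a, Nat.sub_pos_of_lt hab, ?_⟩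
  have hb : b = a + (b - a) := by omega
  rw [hb, pow_add, AlgEquiv.mul_apply] at heq
  exact ((σ ^ a).injective heq).symm

/-- Elements of the decomposition group of a valuation subring of an algebraic extension preserve
the valuation (one inequality). -/
lemma apply_div_self_mem {S K : Type*} [Field S] [Field K] [Algebra S K]
    [Algebra.IsAlgebraic S K] {A : ValuationSubring K} {σ : K ≃ₐ[S] K}
    (hσ : σ ∈ A.decompositionSubgroup S) {x : K} (hx : x ≠ 0) : σ x / x ∈ A := by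
  by_contra hcon
  have he : x / σ x ∈ A.nonunits := by
    have := inv_nu_of_not_mem A hcon
    rwa [inv_div] at this
  have hpow : ∀ k : ℕ, σ ^ k ∈ A.decompositionSubgroup S := fun k => pow_mem hσ k
  have hk : ∀ n : ℕ, x / (σ ^ (n + 1)) x ∈ A.nonunits := by
    intro n
    induction n with
    | zero => simpa using he
    | succ n ih =>
      have h1 : (σ ^ (n + 1)) (x / σ x) ∈ A.nonunits :=
        H63.apply_mem_nonunits_of_mem_decompositionSubgroup (hpow (n + 1)) he
      have hne : ∀ m : ℕ, (σ ^ m) x ≠ 0 := fun m => by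
        rw [Ne, map_eq_zero]; exact hx
      have e : x / (σ ^ (n + 1 + 1)) x = x / (σ ^ (n + 1)) x * (σ ^ (n + 1)) (x / σ x) := by
        have e1 : (σ ^ (n + 1)) (σ x) = (σ ^ (n + 1 + 1)) x := by
          rw [pow_succ (σ) (n + 1), AlgEquiv.mul_apply]
        rw [map_div₀, e1]
        have := hne (n + 1)
        have := hne (n + 1 + 1)
        field_simp
      rw [e]
      exact nu_mul_left A (mem_of_nu A ih) h1
  obtain ⟨n, hn, hfix⟩ := exists_pow_apply_eq σ x
  obtain ⟨m, rfl⟩ : ∃ m, n = m + 1 := ⟨n - 1, by omega⟩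
  have := hk m
  rw [hfix, div_self hx] at this
  exact one_not_nu A this

/-- Elements of the decomposition group of a valuation subring of an algebraic extension preserve
the valuation: `σ x / x` is a unit. -/
theorem apply_div_self_unit {S K : Type*} [Field S] [Field K] [Algebra S K]
    [Algebra.IsAlgebraic S K] {A : ValuationSubring K} {σ : K ≃ₐ[S] K}
    (hσ : σ ∈ A.decompositionSubgroup S) {x : K} (hx : x ≠ 0) :
    σ x / x ∈ A ∧ σ x / x ∉ A.nonunits := by
  refine ⟨apply_div_self_mem hσ hx, ?_⟩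
  have hσx : σ x ≠ 0 := by rw [Ne, map_eq_zero]; exact hx
  have h1 := apply_div_self_mem ((A.decompositionSubgroup S).inv_mem hσ) hσx
  have h2 : σ⁻¹ (σ x) = x := by
    change σ.symm (σ x) = x
    exact σ.symm_apply_apply x
  rw [h2] at h1
  intro hnu
  have := nu_mul_left A h1 hnu
  rw [div_mul_div_cancel₀ hσx, div_self hx] at this
  exact one_not_nu A this

/-- Elements of the decomposition group of a valuation subring of an algebraic extension preserve
the valuation. -/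
theorem valuation_apply_eq {S K : Type*} [Field S] [Field K] [Algebra S K]
    [Algebra.IsAlgebraic S K] (A : ValuationSubring K) (σ : K ≃ₐ[S] K)
    (hσ : σ ∈ A.decompositionSubgroup S) (z : K) : A.valuation (σ z) = A.valuation z := by
  by_cases hz : z = 0
  · rw [hz, map_zero]
  have hvz : A.valuation z ≠ 0 := (Valuation.ne_zero_iff _).mpr hz
  have h1 : A.valuation (σ z / z) = 1 := (val_one_iff A).mpr (apply_div_self_unit hσ hz)
  rw [map_div₀, div_eq_one_iff_eq hvz] at h1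
  exact h1

/-- **D1, skeleton form** (`Qb = AlgebraicClosure ℚ`): elements of the decomposition group
preserve the valuation. -/
theorem valuation_map_of_mem_decomposition (A : ValuationSubring (AlgebraicClosure ℚ))
    (σ : AlgebraicClosure ℚ ≃ₐ[ℚ] AlgebraicClosure ℚ)
    (hσ : σ ∈ A.decompositionSubgroup ℚ) (z : AlgebraicClosure ℚ) :
    A.valuation (σ z) = A.valuation z := by
  have : Algebra.IsAlgebraic ℚ (AlgebraicClosure ℚ) := AlgebraicClosure.isAlgebraic ℚ
  exact valuation_apply_eq A σ hσ z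

universe r s v

variable {R : Type r} {S : Type s} {K : Type v} [CommRing R] [Field S] [Field K]
  [DecidableEq K] {W' : Affine R} [Algebra R S] [Algebra R K] [Algebra S K]
  [IsScalarTower R S K]

/-- Inertia (even decomposition) elements preserve `E₀`. -/
theorem inE0_smul (A : ValuationSubring K) {σ : K ≃ₐ[S] K}
    (hσ : σ ∈ A.decompositionSubgroup S) {P : (W'⁄K).Point} (hP : InE0 A P) :
    InE0 A (σ • P) := by
  rcases hP with rfl | hP
  · left; exact smul_zero σ
  · cases P with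
    | zero => left; exact smul_zero σ
    | some x y h =>
      right
      change σ x ∉ A.nonunits
      rw [xOf_some] at hP
      exact fun hh => hP ((H63.apply_mem_nonunits_iff_of_mem_decompositionSubgroup hσ).mp hh)

/-- **Branch lemma, Galois form.**  In the multiplicative normal form (`a₃ = a₆ = 0`,
`a₁, a₂ ∈ A`, `a₄ ∈ 𝔪`, `b₂` a unit), for `σ` in the inertia group of `A` and a point `P` of odd
prime order, `σ • P - P` lies in `E₀`. -/
theorem inE0_smul_sub [Algebra.IsAlgebraic S K] (A : ValuationSubring K)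
    (h₃ : (W'⁄K).a₃ = 0) (h₆ : (W'⁄K).a₆ = 0) (ha₁ : (W'⁄K).a₁ ∈ A) (ha₂ : (W'⁄K).a₂ ∈ A)
    (h₄ : (W'⁄K).a₄ ∈ A.nonunits) (hb₂ : (W'⁄K).b₂ ∉ A.nonunits)
    {σ : K ≃ₐ[S] K} (hσ : σ ∈ A.inertiaSubgroupIn S)
    {p : ℕ} (hp : p.Prime) (hp2 : p ≠ 2) {P : (W'⁄K).Point} (hpP : p • P = 0) :
    InE0 A (σ • P - P) := by
  have hσD := H63.mem_decompositionSubgroup_of_mem_inertiaSubgroupIn hσ
  have hb₂A : (W'⁄K).b₂ ∈ A := by
    have hb2 : (W'⁄K).b₂ = (W'⁄K).a₁ ^ 2 + 4 * (W'⁄K).a₂ := by simp [b₂]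
    have h4A : (4 : K) ∈ A := by
      have : (4 : K) = 2 * 2 := by norm_num
      rw [this]; exact A.mul_mem _ _ (two_mem A) (two_mem A)
    rw [hb2]; exact add_mem (pow_mem ha₁ 2) (mul_mem h4A ha₂)
  by_cases hP : InE0 A P
  · exact InE0.sub h₃ h₆ h₄ hb₂A (inE0_smul A hσD hP) hP
  obtain ⟨hx0, h4⟩ := a₄_div_xOf_mem_nonunits A h₃ h₆ h₄ hb₂A hp hp2 hpP hP
  cases P with
  | zero => exact absurd (InE0.zero A) hP
  | some x y h =>
    rw [xOf_some] at hx0 h4
    have hx : x ∈ A.nonunits := by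
      by_contra hx
      exact hP (Or.inr (by rwa [xOf_some]))
    have hmap : σ • Point.some x y h =
        Point.some (σ x) (σ y) ((W'.baseChange_nonsingular σ.toAlgHom.injective ..).mpr h) := rfl
    rw [hmap]
    obtain ⟨he, he'⟩ := apply_div_self_unit hσD hx0
    have htA : y / x ∈ A :=
      div_mem_of_equation A h₃ h₆ ha₁ ha₂ h.1 hx0 (mem_of_nu A hx) (mem_of_nu A h4)
    have ht : σ y / σ x - y / x ∈ A.nonunits := by
      rw [← map_div₀]
      exact H63.apply_sub_mem_nonunits_of_mem_inertiaSubgroupIn hσ htA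
    exact branch_coord A h₃ h₆ ha₁ ha₂ hb₂ h _ hx0 hx h4 he he' ht

/-- **Branch lemma for a curve over `ℚ`** at a valuation subring of `ℚ̄ = AlgebraicClosure ℚ`, in
the shape of the multiplicative alternative of `LocalHyp` in the S13 skeleton. -/
theorem inE0_smul_sub_rat (W₀ : Affine ℚ) (A : ValuationSubring (AlgebraicClosure ℚ))
    (h₃ : W₀.a₃ = 0) (h₆ : W₀.a₆ = 0)
    (ha₁ : algebraMap ℚ (AlgebraicClosure ℚ) W₀.a₁ ∈ A)
    (ha₂ : algebraMap ℚ (AlgebraicClosure ℚ) W₀.a₂ ∈ A)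
    (h₄ : algebraMap ℚ (AlgebraicClosure ℚ) W₀.a₄ ∈ A.nonunits)
    (hb₂ : algebraMap ℚ (AlgebraicClosure ℚ) W₀.b₂ ∉ A.nonunits)
    {σ : AlgebraicClosure ℚ ≃ₐ[ℚ] AlgebraicClosure ℚ} (hσ : σ ∈ A.inertiaSubgroupIn ℚ)
    {p : ℕ} (hp : p.Prime) (hp2 : p ≠ 2) {P : (W₀⁄(AlgebraicClosure ℚ)).Point}
    (hpP : p • P = 0) : InE0 A (σ • P - P) := by
  have : Algebra.IsAlgebraic ℚ (AlgebraicClosure ℚ) := AlgebraicClosure.isAlgebraic ℚ
  have e₃ : (W₀⁄(AlgebraicClosure ℚ)).a₃ = 0 := by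
    show algebraMap ℚ (AlgebraicClosure ℚ) W₀.a₃ = 0
    rw [h₃, map_zero]
  have e₆ : (W₀⁄(AlgebraicClosure ℚ)).a₆ = 0 := by
    show algebraMap ℚ (AlgebraicClosure ℚ) W₀.a₆ = 0
    rw [h₆, map_zero]
  have eb₂ : (W₀⁄(AlgebraicClosure ℚ)).b₂ = algebraMap ℚ (AlgebraicClosure ℚ) W₀.b₂ :=
    WeierstrassCurve.map_b₂ W₀ (algebraMap ℚ (AlgebraicClosure ℚ))
  exact inE0_smul_sub (S := ℚ) A e₃ e₆ ha₁ ha₂ h₄ (eb₂ ▸ hb₂) hσ hp hp2 hpP

end Galois

end Fermat.Agent.S13.H27
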